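import Mathlib

/-!
# Domains stay domains over an algebraically closed field

Rational points separate elements of a reduced algebra of finite type, hence a tensor product of
two domains over the ground field is a domain.
-/

noncomputable section

open TensorProduct

namespace Fermat.Agent.Pic.Power

universe u v w

variable {k : Type u} [Field k] [IsAlgClosed k] {A : Type v} [CommRing A] [Algebra k A]
  [Algebra.FiniteType k A]

/-- An element of a reduced algebra of finite type vanishing at all rational points is zero. -/
theorem eq_zero_of_forall_algHom [IsReduced A] {a : A} (h : ∀ φ : A →ₐ[k] k, φ a = 0) : a = 0 := by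
  have hJ : IsJacobsonRing A := isJacobsonRing_of_finiteType (A := k)
  have h0 : a ∈ (⊥ : Ideal A).jacobson := by
    refine Ideal.mem_sInf.mpr fun m ⟨_, hm⟩ => ?_
    have := hm
    let := Ideal.Quotient.field m
    have : Algebra.FiniteType k (A ⧸ m) :=
      Algebra.FiniteType.of_surjective (Ideal.Quotient.mkₐ k m) Ideal.Quotient.mk_surjective
    have : Module.Finite k (A ⧸ m) := finite_of_finite_type_of_isJacobsonRing k (A ⧸ m)
    let e : k ≃ₐ[k] (A ⧸ m) := AlgEquiv.ofBijective (Algebra.ofId k (A ⧸ m))
      (IsAlgClosed.algebraMap_bijective_of_isIntegral (k := k) (K := A ⧸ m))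
    refine Ideal.Quotient.eq_zero_iff_mem.mp (e.symm.injective ?_)
    rw [map_zero]
    exact h (e.symm.toAlgHom.comp (Ideal.Quotient.mkₐ k m))
  rw [IsJacobsonRing.out hJ (I := (⊥ : Ideal A))
    Ideal.isRadical_bot] at h0
  exact h0

variable {K : Type w} [CommRing K] [Algebra k K]

/-- Two nonzero tensors have a common rational point at which neither vanishes. -/
theorem exists_eval_ne_zero [IsReduced A] [IsDomain A] {x y : A ⊗[k] K} (hx : x ≠ 0) (hy : y ≠ 0) :
    ∃ φ : A →ₐ[k] k,
      Algebra.TensorProduct.lift ((Algebra.ofId k K).comp φ) (AlgHom.id k K)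
          (fun _ _ => .all _ _) x ≠ 0 ∧
      Algebra.TensorProduct.lift ((Algebra.ofId k K).comp φ) (AlgHom.id k K)
          (fun _ _ => .all _ _) y ≠ 0 := by
  let b := Module.Free.chooseBasis k K
  let B := Algebra.TensorProduct.basis A b
  have key : ∀ (φ : A →ₐ[k] k) (z : A ⊗[k] K) (i : Module.Free.ChooseBasisIndex k K),
      Algebra.TensorProduct.lift ((Algebra.ofId k K).comp φ) (AlgHom.id k K)
        (fun _ _ => .all _ _) z = 0 → φ (B.repr z i) = 0 := by
    intro φ z i
    have h : b.repr (Algebra.TensorProduct.lift ((Algebra.ofId k K).comp φ) (AlgHom.id k K)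
        (fun _ _ => .all _ _) z) i = φ (B.repr z i) := by
      induction z using TensorProduct.induction_on with
      | zero => simp
      | tmul a e =>
        rw [Algebra.TensorProduct.lift_tmul]
        simp only [AlgHom.comp_apply, Algebra.ofId_apply, AlgHom.id_apply, ← Algebra.smul_def,
          map_smul, Finsupp.smul_apply, B, Algebra.TensorProduct.basis_repr_tmul,
          Finsupp.mapRange_apply, smul_eq_mul, map_mul, AlgHom.commutes, Algebra.algebraMap_self,
          RingHom.id_apply]
      | add p q hp hq => simp [hp, hq]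
    intro hz
    rw [← h, hz]
    simp
  obtain ⟨i, hi⟩ : ∃ i, B.repr x i ≠ 0 := by
    by_contra h
    push Not at h
    exact hx (B.repr.map_eq_zero_iff.mp (Finsupp.ext h))
  obtain ⟨j, hj⟩ : ∃ j, B.repr y j ≠ 0 := by
    by_contra h
    push Not at h
    exact hy (B.repr.map_eq_zero_iff.mp (Finsupp.ext h))
  obtain ⟨φ, hφ⟩ : ∃ φ : A →ₐ[k] k, φ (B.repr x i * B.repr y j) ≠ 0 := by
    by_contra h
    push Not at h
    exact mul_ne_zero hi hj (eq_zero_of_forall_algHom h)
  rw [map_mul] at hφ
  exact ⟨φ, fun h => hφ (by rw [key φ x i h, zero_mul]),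
      fun h => hφ (by rw [key φ y j h, mul_zero])⟩

/-- The tensor product of a finite type domain over an algebraically closed field with any domain
is a domain. -/
theorem isDomain_tensorProduct [IsDomain A] [IsDomain K] : IsDomain (A ⊗[k] K) := by
  have : Nontrivial (A ⊗[k] K) :=
    Algebra.TensorProduct.nontrivial_of_algebraMap_injective_of_isDomain k A K
      (algebraMap k A).injective (algebraMap k K).injective
  have : NoZeroDivisors (A ⊗[k] K) := ⟨fun {x y} h => by
    by_contra hn
    rw [not_or] at hn
    obtain ⟨φ, h1, h2⟩ := exists_eval_ne_zero hn.1 hn.2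
    exact mul_ne_zero h1 h2 (by rw [← map_mul, h, map_zero])⟩
  exact NoZeroDivisors.to_isDomain _

/-- The same with the factors exchanged. -/
theorem isDomain_tensorProduct_symm [IsDomain A] [IsDomain K] : IsDomain (K ⊗[k] A) := by
  have := isDomain_tensorProduct (k := k) (A := A) (K := K)
  exact MulEquiv.isDomain (A ⊗[k] K) (Algebra.TensorProduct.comm k K A).toMulEquiv

end Fermat.Agent.Pic.Power
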