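import Fermat.Agent.Pic.Power.TensorDomain

/-!
# Integral schemes of finite type over an algebraically closed field are geometrically integral

A cover by affine opens meeting pairwise reduces this to tensor products of domains with fields.
-/

noncomputable section

universe u

open CategoryTheory CategoryTheory.Limits AlgebraicGeometry

namespace Fermat.Agent.Pic.Power

/-- A space covered by irreducible opens meeting pairwise is irreducible. -/
theorem irreducibleSpace_of_cover {X : Type*} [TopologicalSpace X] [Nonempty X] {ι : Type*}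
    (R : ι → Set X) (hopen : ∀ i, IsOpen (R i)) (hpre : ∀ i, IsPreirreducible (R i))
    (hcov : ∀ x, ∃ i, x ∈ R i) (hmeet : ∀ i j, (R i ∩ R j).Nonempty) : IrreducibleSpace X := by
  refine @IrreducibleSpace.mk X _ ⟨fun U V hU hV => ?_⟩ inferInstance
  rintro ⟨x, -, hx⟩ ⟨y, -, hy⟩
  obtain ⟨i, hi⟩ := hcov x
  obtain ⟨j, hj⟩ := hcov y
  obtain ⟨z, hzi, hzj⟩ := hmeet i j
  obtain ⟨a, hai, haU, haj⟩ := hpre i U (R j) hU (hopen j) ⟨x, hi, hx⟩ ⟨z, hzi, hzj⟩
  obtain ⟨b, -, hb⟩ := hpre j U V hU hV ⟨a, haj, haU⟩ ⟨y, hj, hy⟩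
  exact ⟨b, Set.mem_univ b, hb⟩

variable {k : Type u} [Field k] [IsAlgClosed k]

/-- An affine domain of finite type stays integral over any field extension. -/
theorem isIntegral_pullback_spec {A : CommRingCat.{u}} [IsDomain A] {K : Type u} [Field K]
    (φ : CommRingCat.of k ⟶ A) (hφ : φ.hom.FiniteType) (ψ : CommRingCat.of k ⟶ CommRingCat.of K) :
    IsIntegral (pullback (Spec.map φ) (Spec.map ψ)) := by
  algebraize [φ.hom, ψ.hom]
  have : Algebra.FiniteType k A := hφ
  have := isDomain_tensorProduct (k := k) (A := A) (K := K)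
  let e : pullback (Spec.map φ) (Spec.map ψ) ≅ Spec (CommRingCat.of (TensorProduct k A K)) :=
    pullbackSpecIso k A K
  exact IsIntegral.of_isIso e.inv

/-- An integral scheme of finite type stays integral over any field extension. -/
theorem isIntegral_of_isPullback {Y Z : Scheme.{u}} (f : Y ⟶ Spec (CommRingCat.of k))
    [LocallyOfFiniteType f] [IsIntegral Y] {K : Type u} [Field K]
    (x : Spec (CommRingCat.of K) ⟶ Spec (CommRingCat.of k)) {fst : Z ⟶ Y}
    {snd : Z ⟶ Spec (CommRingCat.of K)} (hP : IsPullback fst snd f x) : IsIntegral Z := by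
  have hsurj : Function.Surjective fst := by
    have : Surjective x := ⟨fun z => ⟨Classical.arbitrary _, Subsingleton.elim _ z⟩⟩
    exact (MorphismProperty.of_isPullback (P := @Surjective) hP.flip this).1
  let 𝒰 := Y.affineCover
  obtain ⟨ψ, rfl⟩ := Spec.map_surjective x
  have hint : ∀ i : 𝒰.I₀, Nonempty (𝒰.X i) → IsIntegral (pullback fst (𝒰.f i)) := fun i hne => by
    obtain ⟨φ, hφ⟩ := Spec.map_surjective (𝒰.f i ≫ f)
    have hint : IsIntegral (𝒰.X i) := isIntegral_of_isOpenImmersion (𝒰.f i)
    have : IsDomain _ := (affine_isIntegral_iff _).mp hint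
    have hft : φ.hom.FiniteType := by
      refine (HasRingHomProperty.Spec_iff (P := @LocallyOfFiniteType)).mp ?_
      rw [hφ]
      exact MorphismProperty.comp_mem _ _ _ (inferInstanceAs (LocallyOfFiniteType (𝒰.f i))) ‹_›
    have h : IsPullback (pullback.snd fst (𝒰.f i)) (pullback.fst fst (𝒰.f i) ≫ snd)
        (Spec.map φ) (Spec.map ψ) :=
      hφ ▸ ((IsPullback.of_hasPullback fst (𝒰.f i)).flip.paste_vert hP)
    exact @IsIntegral.of_isIso _ _ (isIntegral_pullback_spec φ hft ψ) h.isoPullback.inv
      (Iso.isIso_inv h.isoPullback)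
  have : Nonempty Z :=
    ⟨(hsurj (Classical.arbitrary _)).choose⟩
  have : IsReduced Z := by
    have hi' : ∀ i, IsReduced ((Precoverage.ZeroHypercover.pullback₁ fst 𝒰).X i) := fun i => by
      show IsReduced (pullback fst (𝒰.f i))
      rcases isEmpty_or_nonempty (𝒰.X i) with h | h
      · have : IsEmpty ↑(pullback fst (𝒰.f i)) := Function.isEmpty (pullback.snd fst (𝒰.f i))
        have := fun z : ↑(pullback fst (𝒰.f i)) =>
          (isEmptyElim z : _root_.IsReduced ((pullback fst (𝒰.f i)).presheaf.stalk z))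
        exact isReduced_of_isReduced_stalk _
      · have := hint i h
        infer_instance
    exact IsReduced.of_openCover (X := Z) (𝒰 := Precoverage.ZeroHypercover.pullback₁ fst 𝒰)
  have : IrreducibleSpace Z := by
    refine irreducibleSpace_of_cover
      (fun i : {i : 𝒰.I₀ // Nonempty (𝒰.X i)} => Set.range (pullback.fst fst (𝒰.f i.1)))
      (fun i => (pullback.fst fst (𝒰.f i.1)).isOpenEmbedding.isOpen_range)
      (fun i => ?_) (fun z => ?_) fun i j => ?_
    · obtain ⟨i, hi⟩ := i
      have := hint i hi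
      rw [← Set.image_univ]
      exact ((irreducibleSpace_of_isIntegral (X := pullback fst
          (𝒰.f i))).isPreirreducible_univ).image _
        (pullback.fst fst (𝒰.f i)).continuous.continuousOn
    · obtain ⟨w, hw⟩ := 𝒰.covers (fst z)
      exact ⟨⟨𝒰.idx (fst z), ⟨w⟩⟩, by rw [Scheme.Pullback.range_fst]; exact ⟨w, hw⟩⟩
    · obtain ⟨i, hi⟩ := i
      obtain ⟨j, hj⟩ := j
      obtain ⟨y, hy⟩ := nonempty_preirreducible_inter (𝒰.f i).isOpenEmbedding.isOpen_range
        (𝒰.f j).isOpenEmbedding.isOpen_range (Set.range_nonempty _) (Set.range_nonempty _)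
      obtain ⟨z, rfl⟩ := hsurj y
      exact ⟨z, by
        rw [Scheme.Pullback.range_fst, Scheme.Pullback.range_fst]
        exact hy⟩
  exact isIntegral_of_irreducibleSpace_of_isReduced _

/-- An integral scheme locally of finite type over an algebraically closed field is geometrically
integral. -/
theorem geometricallyIntegral_of_isIntegral {Y : Scheme.{u}} (f : Y ⟶ Spec (CommRingCat.of k))
    [LocallyOfFiniteType f] [IsIntegral Y] : GeometricallyIntegral f :=
  ⟨fun _ _ x _ _ _ hP => isIntegral_of_isPullback f x hP⟩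

end Fermat.Agent.Pic.Power
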