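import Fermat.Prelude.Def_AlgebraicGeometry_RelativePicardFunctor
import Fermat.Agent.Pic.Power.GeomIntegral

/-!
# Powers of a scheme over a field

Fibre powers over the base, their projections, tuples, and the inherited properties (proper,
finite type, integral).
-/

noncomputable section

universe u

open CategoryTheory CategoryTheory.Limits AlgebraicGeometry NeronModelInfra

namespace Fermat.Agent.Pic.Power

section

variable {k : Type u} [Field k] {C : Scheme.{u}} (c : C ⟶ Spec (CommRingCat.of k))

/-- The fibre powers with their structure maps. -/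
def powOver : ℕ → Σ X : Scheme.{u}, X ⟶ Spec (CommRingCat.of k)
  | 0 => ⟨Spec (CommRingCat.of k), 𝟙 _⟩
  | n + 1 => ⟨pullback (powOver n).2 c, pullback.fst _ _ ≫ (powOver n).2⟩

/-- The `n`-th power. -/
abbrev Pow (n : ℕ) : Scheme.{u} := (powOver c n).1

/-- Its structure map. -/
abbrev powHom (n : ℕ) : Pow c n ⟶ Spec (CommRingCat.of k) := (powOver c n).2

/-- The projections. -/
def proj : ∀ n : ℕ, Fin n → SchemeHomOver (powHom c n) c
  | 0 => fun i => Fin.elim0 i
  | n + 1 => Fin.lastCases
      ⟨pullback.snd (powHom c n) c, (pullback.condition (f := powHom c n) (g := c)).symm⟩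
      (fun i => RelPicard.postComp (proj n i) ⟨pullback.fst (powHom c n) c, rfl⟩)

theorem proj_last (n : ℕ) : (proj c (n + 1) (Fin.last n)).1 = pullback.snd (powHom c n) c := by
  simp [proj]

theorem proj_castSucc (n : ℕ) (i : Fin n) :
    (proj c (n + 1) i.castSucc).1 = pullback.fst (powHom c n) c ≫ (proj c n i).1 := by
  simp [proj, RelPicard.postComp]; rfl

variable {T : Scheme.{u}} {t : T ⟶ Spec (CommRingCat.of k)}

/-- The point given by a tuple. -/
def tuple : ∀ {n : ℕ}, (Fin n → SchemeHomOver t c) → SchemeHomOver t (powHom c n)
  | 0, _ => ⟨t, Category.comp_id t⟩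
  | n + 1, a => ⟨pullback.lift (tuple fun i => a i.castSucc).1 (a (Fin.last n)).1
      ((tuple fun i => a i.castSucc).2.trans (a (Fin.last n)).2.symm), by
      exact ((Category.assoc _ _ _).symm.trans
        (congrArg (· ≫ powHom c n) (pullback.lift_fst _ _ _))).trans
          (tuple fun i => a i.castSucc).2⟩

theorem tuple_proj {n : ℕ} (a : Fin n → SchemeHomOver t c) (i : Fin n) :
    RelPicard.postComp (proj c n i) (tuple c a) = a i := by
  induction n with
  | zero => exact i.elim0
  | succ n ih =>
    refine Subtype.ext ?_
    show (tuple c a).1 ≫ (proj c (n + 1) i).1 = (a i).1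
    induction i using Fin.lastCases with
    | last => rw [proj_last]; exact pullback.lift_snd _ _ _
    | cast i =>
      rw [proj_castSucc]
      refine (Category.assoc _ _ _).symm.trans ?_
      refine Eq.trans ?_ (congrArg Subtype.val (ih (fun i => a i.castSucc) i))
      exact congrArg (· ≫ (proj c n i).1) (pullback.lift_fst _ _ _)

instance isProper_powHom [IsProper c] : ∀ n, IsProper (powHom c n)
  | 0 => inferInstanceAs (IsProper (𝟙 (Spec (CommRingCat.of k))))
  | n + 1 => by
    have := isProper_powHom n
    exact MorphismProperty.comp_mem (W := @IsProper) (pullback.fst (powHom c n) c) (powHom c n)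
      (MorphismProperty.pullback_fst (P := @IsProper) _ _ inferInstance) this

instance locallyOfFiniteType_powHom [LocallyOfFiniteType c] : ∀ n, LocallyOfFiniteType (powHom c n)
  | 0 => inferInstanceAs (LocallyOfFiniteType (𝟙 (Spec (CommRingCat.of k))))
  | n + 1 => by
    have := locallyOfFiniteType_powHom n
    exact MorphismProperty.comp_mem (W := @LocallyOfFiniteType) (pullback.fst (powHom c n) c)
      (powHom c n) (MorphismProperty.pullback_fst
        (P := @LocallyOfFiniteType) _ _ inferInstance) this

/-- The powers of a smooth integral curve over an algebraically closed field are integral. -/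
theorem isIntegral_pow [IsAlgClosed k] [IsIntegral C] [Smooth c] : ∀ n, IsIntegral (Pow c n)
  | 0 => inferInstanceAs (IsIntegral (Spec (CommRingCat.of k)))
  | n + 1 => by
    have := isIntegral_pow n
    have := geometricallyIntegral_of_isIntegral c
    have : IsLocallyNoetherian (Pow c n) := LocallyOfFiniteType.isLocallyNoetherian (powHom c n)
    show IsIntegral (pullback (powHom c n) c)
    infer_instance

/-- The powers are geometrically integral. -/
theorem geometricallyIntegral_powHom [IsAlgClosed k] [IsIntegral C] [Smooth c] (n : ℕ) :
    GeometricallyIntegral (powHom c n) :=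
  haveI := isIntegral_pow c n
  geometricallyIntegral_of_isIntegral _

/-- Geometrically integral schemes are geometrically connected. -/
theorem geometricallyConnected_of_geometricallyIntegral {X : Scheme.{u}}
    (f : X ⟶ Spec (CommRingCat.of k)) [GeometricallyIntegral f] : GeometricallyConnected f :=
  ⟨fun _ _ x Z fst snd hP =>
    have : IsIntegral Z := GeometricallyIntegral.geometrically_isIntegral x fst snd hP
    inferInstance⟩

end

end Fermat.Agent.Pic.Power
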