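import Fermat.Agent.Pic.Curve.Cover
import Fermat.Agent.Pic.Power.Basic

/-!
# The coordinate rings of the curve

The rings of functions regular away from a nonempty finite set of places are Dedekind domains
that are not fields.
-/

noncomputable section

universe u

open CategoryTheory CategoryTheory.Limits AlgebraicGeometry AlgebraicCurve
open scoped TensorProduct

namespace Fermat.Agent.Pic.Power

variable {k : Type u} [Field k] [IsAlgClosed k] {C : Scheme.{u}} [IsIntegral C]
  (c : C ⟶ Spec (CommRingCat.of k)) [IsProper c] [SmoothOfRelativeDimension 1 c]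

omit [IsAlgClosed k] in
/-- Functions regular off a set of places form an integrally closed ring. -/
theorem isIntegrallyClosed_regularOff {F : Type u} [Field F] [Algebra k F]
    (S : Finset (Place k F)) : IsIntegrallyClosed (regularOff (K := k) S) := by
  set A := regularOff (K := k) S
  rw [isIntegrallyClosed_iff (FractionRing A)]
  intro x hx
  let ι : FractionRing A →+* F := IsFractionRing.lift (g := A.val.toRingHom) Subtype.val_injective
  have hι : ∀ a : A, ι (algebraMap A (FractionRing A) a) = a := fun a =>
    IsFractionRing.lift_algebraMap (g := A.val.toRingHom) Subtype.val_injective a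
  have hmem : ι x ∈ A := by
    intro v hv
    let j : A →+* v.toValuationSubring :=
      A.val.toRingHom.codRestrict v.toValuationSubring.toSubring fun a => a.2 v hv
    obtain ⟨p, hp, hpx⟩ := hx
    have hint : IsIntegral v.toValuationSubring (ι x) := by
      refine ⟨p.map j, hp.map j, ?_⟩
      rw [Polynomial.eval₂_map]
      have h0 := congrArg ι hpx
      rw [map_zero, Polynomial.hom_eval₂] at h0
      convert! h0 using 2
      exact RingHom.ext fun a => (hι a).symm
    obtain ⟨w, hw⟩ := IsIntegrallyClosed.isIntegral_iff.mp hint
    exact hw ▸ w.2
  refine ⟨⟨ι x, hmem⟩, ι.injective ?_⟩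
  rw [hι]

/-- The coordinate rings of the affine charts are Dedekind domains. -/
theorem isDedekindDomain_regularOff {S : Finset (Place k (CurveField c))} (hS : S.Nonempty) :
    IsDedekindDomain (regularOff (K := k) S) := by
  have := finiteType_regularOff c hS
  have : IsNoetherianRing (regularOff (K := k) S) := Algebra.FiniteType.isNoetherianRing k _
  have : Ring.DimensionLEOne (regularOff (K := k) S) := ⟨fun {p} hp hprime => by
    obtain ⟨f, hfp, hf⟩ := Submodule.exists_mem_ne_zero_of_ne_bot hp
    have := finite_quotient_span c hS f hf
    have hle : Ideal.span ({f} : Set (regularOff (K := k) S)) ≤ p :=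
      (Ideal.span_singleton_le_iff_mem _).mpr hfp
    have : Module.Finite k (regularOff (K := k) S ⧸ p) :=
      Module.Finite.of_surjective (Ideal.Quotient.factorₐ k hle).toLinearMap
        (Ideal.Quotient.factor_surjective hle)
    have : IsArtinianRing (regularOff (K := k) S ⧸ p) := IsArtinianRing.of_finite k _
    exact Ideal.Quotient.maximal_of_isField p (IsArtinianRing.isField_of_isDomain _)⟩
  have := isIntegrallyClosed_regularOff (k := k) S
  exact {}

/-- The coordinate rings of the affine charts are not fields. -/
theorem not_isField_regularOff {S : Finset (Place k (CurveField c))} (hS : S.Nonempty) :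
    ¬ IsField (regularOff (K := k) S) := by
  intro hA
  obtain ⟨v, hv⟩ := hS
  obtain ⟨f, hf⟩ := exists_regular_pole c ⟨v, hv⟩ hv
  let := hA.toField
  have := finiteType_regularOff c ⟨v, hv⟩
  have : Module.Finite k (regularOff (K := k) S) := finite_of_finite_type_of_isJacobsonRing k _
  obtain ⟨a, ha⟩ := (IsAlgClosed.algebraMap_bijective_of_isIntegral (k := k)
    (K := regularOff (K := k) S)).2 f
  rw [← ha] at hf
  exact absurd hf (by simp [FF.ord_algebraMap])

/-- The set of places omitted from the overlap is nonempty. -/
theorem both_nonempty {c : C ⟶ Spec (CommRingCat.of k)} [SmoothOfRelativeDimension 1 c]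
    (p : Parameter c) : p.both.Nonempty :=
  ⟨p.e, p.mem_both.mpr (Or.inl rfl)⟩

end Fermat.Agent.Pic.Power
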