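import Fermat.Agent.Pic.Curve.Product

/-!
# Sections of `C × T` over the product of two affine opens

The sections of `C × T` over a product of affine opens are the tensor product of the sections of
the factors.
-/

noncomputable section

universe u

open CategoryTheory CategoryTheory.Limits AlgebraicGeometry TopologicalSpace
open scoped TensorProduct

namespace Fermat.Agent.Pic.Power

variable {k : Type u} [Field k] {C T : Scheme.{u}} (c : C ⟶ Spec (CommRingCat.of k))
  (t : T ⟶ Spec (CommRingCat.of k)) (U : C.Opens) (W : T.Opens)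

/-- The product of two opens. -/
abbrev boxOpen : (pullback c t).Opens := pullback.fst c t ⁻¹ᵁ U ⊓ pullback.snd c t ⁻¹ᵁ W

/-- Functions from the first factor. -/
def boxFst : Γ(C, U) ⟶ Γ(pullback c t, boxOpen c t U W) :=
  (pullback.fst c t).appLE U _ inf_le_left

/-- Functions from the second factor. -/
def boxSnd : Γ(T, W) ⟶ Γ(pullback c t, boxOpen c t U W) :=
  (pullback.snd c t).appLE W _ inf_le_right

theorem sectionsHom_boxSnd :
    sectionsHom t W ≫ boxSnd c t U W = sectionsHom c U ≫ boxFst c t U W := by
  rw [boxFst, boxSnd, sectionsHom, sectionsHom, Category.assoc, Category.assoc,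
    Scheme.Hom.appLE_comp_appLE, Scheme.Hom.appLE_comp_appLE]
  simp only [pullback.condition]

variable {R B : Type u} [CommRing R] [Algebra k R] [CommRing B] [Algebra k B]
  (e : B ≃+* Γ(C, U)) (he : ∀ a, e (algebraMap k B a) = sectionsHom c U a)
  (e' : R ≃+* Γ(T, W)) (he' : ∀ a, e' (algebraMap k R a) = sectionsHom t W a)

/-- Sections over the product from coordinate rings of the factors. -/
def boxHom : R ⊗[k] B →+* Γ(pullback c t, boxOpen c t U W) :=
  letI := ((sectionsHom c U ≫ boxFst c t U W).hom).toAlgebra
  (Algebra.TensorProduct.lift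
    { toRingHom := (boxSnd c t U W).hom.comp e'.toRingHom
      commutes' := fun a => (congrArg (boxSnd c t U W) (he' a)).trans
        (ConcreteCategory.congr_hom (sectionsHom_boxSnd c t U W) a) }
    { toRingHom := (boxFst c t U W).hom.comp e.toRingHom
      commutes' := fun a => congrArg (boxFst c t U W) (he a) }
    (fun _ _ => mul_comm _ _)).toRingHom

theorem boxHom_tmul (r : R) (b : B) :
    boxHom c t U W e he e' he' (r ⊗ₜ[k] b) = boxSnd c t U W (e' r) * boxFst c t U W (e b) := by
  simp [boxHom]

include e he e' he' in
theorem bijective_boxHom (hU : IsAffineOpen U) (hW : IsAffineOpen W) :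
    Function.Bijective (boxHom c t U W e he e' he') := by
  have h1 := (isIso_pushoutSection_iff (IsPullback.of_hasPullback c t)
    (US := ⊤) (UT := W) (UX := U) (UY := boxOpen c t U W) le_top le_top rfl).mp
    (isIso_pushoutSection_of_isAffineOpen _ le_top le_top rfl (isAffineOpen_top _) hW hU)
  have h2 : IsPushout (CommRingCat.ofHom (algebraMap k R)) (CommRingCat.ofHom (algebraMap k B))
      (CommRingCat.ofHom e'.toRingHom ≫ boxSnd c t U W)
      (CommRingCat.ofHom e.toRingHom ≫ boxFst c t U W) := by
    refine (h1.flip.of_iso (Scheme.ΓSpecIso (CommRingCat.of k)) e'.symm.toCommRingCatIso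
      e.symm.toCommRingCatIso (Iso.refl _) ?_ ?_ ?_ ?_)
    · refine (Iso.inv_comp_eq (Scheme.ΓSpecIso (CommRingCat.of k))).mp ?_
      exact CommRingCat.hom_ext (RingHom.ext fun a =>
        (congrArg e'.symm (he' a)).symm.trans (e'.symm_apply_apply _))
    · refine (Iso.inv_comp_eq (Scheme.ΓSpecIso (CommRingCat.of k))).mp ?_
      exact CommRingCat.hom_ext (RingHom.ext fun a =>
        (congrArg e.symm (he a)).symm.trans (e.symm_apply_apply _))
    · rw [Iso.refl_hom, Category.comp_id, ← Category.assoc]
      simp only [RingEquiv.toCommRingCatIso, ← CommRingCat.ofHom_comp, RingEquiv.toRingHom_eq_coe,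
        RingEquiv.comp_symm, CommRingCat.ofHom_id]
      exact (Category.id_comp _).symm
    · rw [Iso.refl_hom, Category.comp_id, ← Category.assoc]
      simp only [RingEquiv.toCommRingCatIso, ← CommRingCat.ofHom_comp, RingEquiv.toRingHom_eq_coe,
        RingEquiv.comp_symm, CommRingCat.ofHom_id]
      exact (Category.id_comp _).symm
  let f := (CommRingCat.isPushout_tensorProduct k R B).isoIsPushout _ _ h2
  have hf : CommRingCat.ofHom (boxHom c t U W e he e' he') = f.hom := by
    apply (CommRingCat.isPushout_tensorProduct k R B).hom_ext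
    · rw [IsPushout.inl_isoIsPushout_hom]
      exact CommRingCat.hom_ext (RingHom.ext fun r => by simp [boxHom_tmul])
    · rw [IsPushout.inr_isoIsPushout_hom]
      exact CommRingCat.hom_ext (RingHom.ext fun b => by simp [boxHom_tmul])
  have : IsIso (CommRingCat.ofHom (boxHom c t U W e he e' he')) := hf ▸ inferInstance
  exact ConcreteCategory.bijective_of_isIso (CommRingCat.ofHom (boxHom c t U W e he e' he'))

/-- Sections over the product of two affine opens. -/
def boxEquiv (hU : IsAffineOpen U) (hW : IsAffineOpen W) :
    R ⊗[k] B ≃+* Γ(pullback c t, boxOpen c t U W) :=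
  RingEquiv.ofBijective (boxHom c t U W e he e' he')
    (bijective_boxHom c t U W e he e' he' hU hW)

include c t in
theorem isAffineOpen_boxOpen (hU : IsAffineOpen U) (hW : IsAffineOpen W) :
    IsAffineOpen (boxOpen c t U W) :=
  haveI : IsAffine _ := hU
  haveI : IsAffine _ := hW
  haveI : IsAffine _ := isAffineOpen_top (Spec (CommRingCat.of k))
  .of_isIso (Scheme.Hom.isPullback_resLE (IsPullback.of_hasPullback c t)
    (US := ⊤) (UT := W) (UX := U) (UY := boxOpen c t U W) le_top le_top rfl).isoPullback.hom

end Fermat.Agent.Pic.Power
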