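import Fermat.Agent.Pic.Bridge.Affine

/-!
# The functions vanishing on a subscheme as a module

`kerMod σ` is the module of functions killed by `σ`; it has a generator on a basic open of an
affine where its sections are, up to the inverted function, the multiples of a regular element.
-/

noncomputable section

universe u

open CategoryTheory TopologicalSpace Opposite AlgebraicGeometry
open Fermat.Agent.Pic.Repr

namespace Fermat.Agent.Pic.Power

variable {X Z : Scheme.{u}} (σ : Z ⟶ X)

/-- The functions on `V` killed by `σ`. -/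
def kerSec (V : X.Opens) : Submodule Γ(X, V) Γ(X, V) := RingHom.ker (σ.app V).hom

theorem mem_kerSec {V : X.Opens} {r : Γ(X, V)} : r ∈ kerSec σ V ↔ σ.app V r = 0 := Iff.rfl

theorem resF_mem_kerSec {V V' : X.Opens} (h : V ≤ V') {r : Γ(X, V')} (hr : r ∈ kerSec σ V') :
    resF h r ∈ kerSec σ V := by
  rw [mem_kerSec, app_resF, (mem_kerSec σ).mp hr]
  exact Bridge.resF_zero _

/-- The presheaf of groups of these functions. -/
def kerAb : X.Opensᵒᵖ ⥤ AddCommGrpCat.{u} where
  obj V := AddCommGrpCat.of (kerSec σ V.unop)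
  map f := AddCommGrpCat.ofHom
    { toFun := fun s => ⟨resF f.unop.le s.1, resF_mem_kerSec σ _ s.2⟩
      map_zero' := Subtype.ext (Bridge.resF_zero _)
      map_add' := fun s t => Subtype.ext (Bridge.resF_add _ s.1 t.1) }
  map_id _ := AddCommGrpCat.ext fun _ => Subtype.ext (resF_self _ _)
  map_comp _ _ := AddCommGrpCat.ext fun _ => Subtype.ext (resF_resF _ _ _).symm

instance (V : X.Opensᵒᵖ) : Module (X.ringCatSheaf.obj.obj V) ((kerAb σ).obj V) :=
  inferInstanceAs (Module Γ(X, V.unop) (kerSec σ V.unop))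

/-- The presheaf of modules of these functions. -/
def kerPresheaf : PresheafOfModules.{u} X.ringCatSheaf.obj :=
  PresheafOfModules.ofPresheaf (kerAb σ) fun _ _ f r s => Subtype.ext (resF_mul f.unop.le r s.1)

theorem isSheaf_ker : TopCat.Presheaf.IsSheaf (kerPresheaf σ).presheaf := by
  rw [TopCat.Presheaf.isSheaf_iff_isSheafUniqueGluing]
  intro ι U sf hcompat
  let q : ∀ i, kerSec σ (U i) := sf
  have hq : ∀ i j, resF (inf_le_left : U i ⊓ U j ≤ U i) (q i).1 = resF inf_le_right (q j).1 :=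
    fun i j => congrArg Subtype.val
      (show (⟨_, resF_mem_kerSec σ inf_le_left (q i).2⟩ : kerSec σ (U i ⊓ U j)) =
        ⟨_, resF_mem_kerSec σ inf_le_right (q j).2⟩ from hcompat i j)
  obtain ⟨g, hg⟩ := exists_glueF (V := iSup U) U (le_iSup U) (fun x hx => Opens.mem_iSup.1 hx)
    (fun i => (q i).1) hq
  have hmem : g ∈ kerSec σ (iSup U) := eq_of_locallyF _ _ fun z hz => by
    obtain ⟨i, hi⟩ := Opens.mem_iSup.1 hz
    refine ⟨σ ⁻¹ᵁ U i, σ.preimage_mono (le_iSup U i), hi, ?_⟩
    refine Eq.trans ?_ (Bridge.resF_zero _).symm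
    rw [← app_resF σ (le_iSup U i), hg]
    exact (q i).2
  refine ⟨(⟨g, hmem⟩ : kerSec σ (iSup U)), fun i => Subtype.ext (hg i), fun s hs =>
    Subtype.ext (eq_of_locallyF _ _ fun x hx => ?_)⟩
  obtain ⟨i, hi⟩ := Opens.mem_iSup.1 hx
  exact ⟨U i, le_iSup U i, hi,
    (congrArg Subtype.val (show _ = q i from hs i)).trans (hg i).symm⟩

/-- The module of functions killed by `σ`. -/
def kerMod : X.Modules := ⟨kerPresheaf σ, isSheaf_ker σ⟩

variable {σ}

/-- A section as a function. -/
def kerVal {V : X.Opens} (m : Γ(kerMod σ, V)) : Γ(X, V) :=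
  Subtype.val (show kerSec σ V from m)

theorem app_kerVal {V : X.Opens} (m : Γ(kerMod σ, V)) : σ.app V (kerVal m) = 0 :=
  Subtype.property (show kerSec σ V from m)

variable (σ) in
/-- A function killed by `σ` as a section. -/
def kerMk {V : X.Opens} (r : Γ(X, V)) (hr : σ.app V r = 0) : Γ(kerMod σ, V) :=
  (⟨r, hr⟩ : kerSec σ V)

@[simp] theorem kerVal_kerMk {V : X.Opens} (r : Γ(X, V)) (hr : σ.app V r = 0) :
    kerVal (kerMk σ r hr) = r := rfl

theorem kerVal_injective {V : X.Opens} : Function.Injective (kerVal (σ := σ) (V := V)) :=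
  fun _ _ h => Subtype.ext h

theorem kerVal_res {V V' : X.Opens} (h : V ≤ V') (m : Γ(kerMod σ, V')) :
    kerVal (res (kerMod σ) h m) = resF h (kerVal m) := rfl

theorem kerVal_smul {V : X.Opens} (r : Γ(X, V)) (m : Γ(kerMod σ, V)) :
    kerVal (r • m) = r * kerVal m := rfl

/-- On a basic open of an affine where the killed functions are the multiples of a regular `f`,
`f` is a generator. -/
theorem isGen_kerMod [IsAffineHom σ] {V : X.Opens} (hV : IsAffineOpen V) (u f : Γ(X, V))
    (hf : σ.app V f = 0) (hgen : ∀ i, σ.app V i = 0 → u * i ∈ Ideal.span ({f} : Set Γ(X, V)))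
    (hann : ∀ z, f * z = 0 → u * z = 0) :
    IsGen (kerMod σ) (X.basicOpen u)
      (res (kerMod σ) (X.basicOpen_le u) (kerMk σ f hf)) := by
  have hval : ∀ (W : X.Opens) (hW : W ≤ X.basicOpen u) (r : Γ(X, W)),
      kerVal (r • res (kerMod σ) hW (res (kerMod σ) (X.basicOpen_le u) (kerMk σ f hf))) =
        r * resF (hW.trans (X.basicOpen_le u)) f := fun W hW r => by
    rw [kerVal_smul, kerVal_res, kerVal_res, kerVal_kerMk, resF_resF]
  have hinj : ∀ (W : X.Opens) (hW : W ≤ X.basicOpen u) (r : Γ(X, W)),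
      r * resF (hW.trans (X.basicOpen_le u)) f = 0 → r = 0 := fun W hW r hr => by
    refine eq_of_locallyF _ _ fun x hx => ?_
    obtain ⟨g, hgW, hxg⟩ := hV.exists_basicOpen_le ⟨x, hx⟩ (X.basicOpen_le u (hW hx))
    refine ⟨X.basicOpen g, hgW, hxg, ?_⟩
    rw [Bridge.resF_zero]
    obtain ⟨n, a, ha⟩ := Bridge.exists_resF_eq_pow_mul hV g rfl (X.basicOpen_le g) (resF hgW r)
    have h0 : resF (X.basicOpen_le g) (f * a) = 0 := by
      have h1 : resF hgW (r * resF (hW.trans (X.basicOpen_le u)) f) = 0 := by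
        rw [hr, Bridge.resF_zero]
      rw [resF_mul, resF_resF] at h1
      rw [resF_mul, ha, mul_left_comm, mul_comm (resF (X.basicOpen_le g) f), h1, mul_zero]
    obtain ⟨m, hm⟩ := Bridge.exists_pow_mul_eq_zero hV g rfl (X.basicOpen_le g) _ h0
    have h2 := congrArg (resF (X.basicOpen_le g)) (hann (g ^ m * a) (by rw [mul_left_comm, hm]))
    rw [resF_mul, resF_mul, Bridge.resF_zero, Bridge.resF_pow, ha] at h2
    refine ((isUnit_resF (hgW.trans hW) (Bridge.isUnit_resF_basicOpen u le_rfl)).mul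
      (((Bridge.isUnit_resF_basicOpen g le_rfl).pow m).mul
        ((Bridge.isUnit_resF_basicOpen g le_rfl).pow n))).mul_right_eq_zero.mp ?_
    rw [resF_resF]
    linear_combination h2
  intro W hW
  refine ⟨fun r r' h => ?_, fun m => ?_⟩
  · have := congrArg kerVal h
    simp only [hval] at this
    exact sub_eq_zero.mp (hinj W hW _ (by rw [sub_mul, this, sub_self]))
  · have hloc : ∀ x : W, ∃ (D : X.Opens) (hD : D ≤ W), x.1 ∈ D ∧ ∃ c : Γ(X, D),
        c * resF ((hD.trans hW).trans (X.basicOpen_le u)) f = resF hD (kerVal m) := fun x => by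
      obtain ⟨g, hgW, hxg⟩ := hV.exists_basicOpen_le x (X.basicOpen_le u (hW x.2))
      refine ⟨X.basicOpen g, hgW, hxg, ?_⟩
      obtain ⟨n, a, ha⟩ := Bridge.exists_resF_eq_pow_mul hV g rfl (X.basicOpen_le g)
        (resF hgW (kerVal m))
      have h0 : resF (σ.preimage_mono (X.basicOpen_le g)) (σ.app V a) = 0 := by
        rw [← app_resF σ (X.basicOpen_le g), ha, map_mul, app_resF σ hgW, app_kerVal,
            Bridge.resF_zero,
          mul_zero]
      obtain ⟨j, hj⟩ := Bridge.exists_pow_mul_eq_zero (hV.preimage σ) (σ.app V g)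
        (Scheme.preimage_basicOpen σ g) (σ.preimage_mono (X.basicOpen_le g)) _ h0
      rw [← map_pow, ← map_mul] at hj
      obtain ⟨b, hb⟩ := Ideal.mem_span_singleton'.mp (hgen _ hj)
      have hu : IsUnit (resF (hgW.trans hW) (resF (X.basicOpen_le u) u) *
          resF (X.basicOpen_le g) g ^ (j + n)) :=
        (isUnit_resF _ (Bridge.isUnit_resF_basicOpen u le_rfl)).mul
          ((Bridge.isUnit_resF_basicOpen g le_rfl).pow _)
      refine ⟨↑hu.unit⁻¹ * resF (X.basicOpen_le g) b, hu.mul_left_cancel ?_⟩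
      rw [← mul_assoc, ← mul_assoc, IsUnit.mul_val_inv, one_mul, resF_resF]
      have hb' := congrArg (resF (X.basicOpen_le g)) hb
      rw [resF_mul, resF_mul, resF_mul, Bridge.resF_pow, ha] at hb'
      rw [hb', pow_add]
      ring
    choose D hD hxD c hc using hloc
    obtain ⟨r, hr⟩ := exists_glueF D hD (fun x hx => ⟨⟨x, hx⟩, hxD _⟩) c fun x y => by
      refine sub_eq_zero.mp (hinj (D x ⊓ D y) ((inf_le_left.trans (hD x)).trans hW) _ ?_)
      have e1 := congrArg (resF (inf_le_left : D x ⊓ D y ≤ D x)) (hc x)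
      have e2 := congrArg (resF (inf_le_right : D x ⊓ D y ≤ D y)) (hc y)
      rw [resF_mul, resF_resF, resF_resF] at e1 e2
      rw [sub_mul, e1, e2, sub_self]
    refine ⟨r, kerVal_injective ((hval W hW r).trans (eq_of_locallyF _ _ fun x hx => ?_))⟩
    refine ⟨D ⟨x, hx⟩, hD _, hxD _, ?_⟩
    rw [resF_mul, hr, resF_resF, hc]

end Fermat.Agent.Pic.Power
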