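import Fermat.Agent.Pic.Curve.Charts
import Fermat.Agent.Pic.Hilb.Invertible
import Fermat.Agent.Pic.Power.Box
import Fermat.Agent.Pic.Power.Curve
import Fermat.Agent.Pic.Power.Kernel

/-!
# The ideal of the diagonal of `C × C` is invertible

Every point of `C × C` lies in `U × U` for an affine `U = openCompl S`, where the ideal is the one
of the rank one quotient `A ⊗ A → A`.
-/

noncomputable section

universe u

open CategoryTheory CategoryTheory.Limits AlgebraicGeometry AlgebraicCurve TopologicalSpace
open scoped TensorProduct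
open Fermat.Agent.Pic.Repr

namespace Fermat.Agent.Pic.Power

section OnePoint

variable (k : Type u) [Field k] (A : Type u) [CommRing A] [Algebra k A]

/-- The quotient by the diagonal, on which `1` is a basis. -/
def onePt : Hilb.Pt k (fun _ : PUnit.{u + 1} => (1 : A)) A where
  π := LinearMap.pi fun _ => LinearMap.id
  norm i := funext fun j => by simp [Subsingleton.elim i j]
  mul b c := funext fun j => by simp [mul_comm]

theorem mem_onePt_ideal {z : A ⊗[k] A} :
    z ∈ (onePt k A).ideal ↔ Algebra.TensorProduct.lmul' k (S := A) z = 0 := by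
  have h : ∀ z : A ⊗[k] A, (onePt k A).πR z = fun _ => Algebra.TensorProduct.lmul' k (S := A) z :=
    fun z => by
      induction z using TensorProduct.induction_on with
      | zero => simp; rfl
      | tmul a b => funext i; simp [onePt]
      | add x y hx hy => funext i; simp [hx, hy]
  rw [Hilb.Pt.mem_ideal, h, funext_iff]
  exact ⟨fun h => h PUnit.unit, fun h _ => h⟩

end OnePoint

variable {k : Type u} [Field k] {C : Scheme.{u}} (c : C ⟶ Spec (CommRingCat.of k))

/-- The diagonal of the curve. -/
abbrev diag : C ⟶ pullback c c := pullback.diagonal c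

theorem preimage_diag_box (U : C.Opens) : diag c ⁻¹ᵁ boxOpen c c U U = U := by
  rw [boxOpen, Scheme.Hom.preimage_inf, ← Scheme.Hom.comp_preimage, ← Scheme.Hom.comp_preimage,
    pullback.diagonal_fst, pullback.diagonal_snd, Scheme.Hom.id_preimage, inf_idem]

theorem boxFst_diag (U : C.Opens) :
    boxFst c c U U ≫ (diag c).appLE _ U (preimage_diag_box c U).ge = 𝟙 _ := by
  rw [boxFst, Scheme.Hom.appLE_comp_appLE]
  simp only [pullback.diagonal_fst]
  simp only [Scheme.Hom.appLE, Scheme.Hom.id_app]
  exact (Category.id_comp _).trans (C.presheaf.map_id _)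

theorem boxSnd_diag (U : C.Opens) :
    boxSnd c c U U ≫ (diag c).appLE _ U (preimage_diag_box c U).ge = 𝟙 _ := by
  rw [boxSnd, Scheme.Hom.appLE_comp_appLE]
  simp only [pullback.diagonal_snd]
  simp only [Scheme.Hom.appLE, Scheme.Hom.id_app]
  exact (Category.id_comp _).trans (C.presheaf.map_id _)

theorem app_diag_eq_zero_iff (U : C.Opens) (z : Γ(pullback c c, boxOpen c c U U)) :
    (diag c).app _ z = 0 ↔ (diag c).appLE _ U (preimage_diag_box c U).ge z = 0 := by
  have h : (diag c).appLE _ U (preimage_diag_box c U).ge z =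
      resF (preimage_diag_box c U).ge ((diag c).app _ z) := rfl
  rw [h]
  refine ⟨fun h => by rw [h, Bridge.resF_zero], fun h => ?_⟩
  have h' := congrArg (resF (preimage_diag_box c U).le) h
  rwa [resF_resF, resF_self, Bridge.resF_zero] at h'

section Box

variable {A : Type u} [CommRing A] [Algebra k A] (U : C.Opens) (e : A ≃+* Γ(C, U))
  (he : ∀ a, e (algebraMap k A a) = sectionsHom c U a)

/-- In coordinates the functions killed by the diagonal are the ideal of the diagonal. -/
theorem app_diag_boxHom_eq_zero_iff (z : A ⊗[k] A) :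
    (diag c).app _ (boxHom c c U U e he e he z) = 0 ↔ z ∈ (onePt k A).ideal := by
  have h : ∀ z : A ⊗[k] A, (diag c).appLE _ U (preimage_diag_box c U).ge
      (boxHom c c U U e he e he z) = e (Algebra.TensorProduct.lmul' k (S := A) z) := fun z => by
    induction z using TensorProduct.induction_on with
    | zero => simp
    | tmul a b =>
      rw [boxHom_tmul, map_mul, Algebra.TensorProduct.lmul'_apply_tmul, map_mul]
      exact congrArg₂ (· * ·) (ConcreteCategory.congr_hom (boxSnd_diag c U) (e a))
        (ConcreteCategory.congr_hom (boxFst_diag c U) (e b))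
    | add x y hx hy => rw [map_add, map_add, map_add, map_add, hx, hy]
  rw [app_diag_eq_zero_iff, h, mem_onePt_ideal, e.map_eq_zero_iff]

end Box

/-- The ideal of the diagonal. -/
def diagMod : (pullback c c).Modules := kerMod (diag c)

variable [IsAlgClosed k] [IsIntegral C] [IsProper c] [SmoothOfRelativeDimension 1 c]

/-- Two points lie in a common complement of a place. -/
theorem exists_openCompl_mem (a b : C) :
    ∃ S : Finset (Place k (CurveField c)), S.Nonempty ∧
      a ∈ openCompl c S ∧ b ∈ openCompl c S := by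
  classical
  by_contra hcon
  push Not at hcon
  have h : ∀ v, (ptOf c v).1 = a ∨ (ptOf c v).1 = b := fun v => by
    by_contra hv
    rw [not_or] at hv
    refine hcon {v} (Finset.singleton_nonempty v) ((mem_openCompl c).mpr fun w hw => ?_)
      ((mem_openCompl c).mpr fun w hw => ?_)
    all_goals rw [Finset.mem_singleton.mp hw]
    exacts [Ne.symm hv.1, Ne.symm hv.2]
  obtain ⟨v₁, -⟩ := exists_place_notMem c ∅
  obtain ⟨v₂, hv₂⟩ := exists_place_notMem c {v₁}
  obtain ⟨v₃, hv₃⟩ := exists_place_notMem c {v₁, v₂}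
  simp only [Finset.mem_insert, Finset.mem_singleton, not_or] at hv₂ hv₃
  have hne : ∀ {v w : Place k (CurveField c)}, v ≠ w → (ptOf c v).1 ≠ (ptOf c w).1 :=
    fun h e => h (ptOf_injective c (Subtype.ext e))
  rcases h v₁ with h₁ | h₁ <;> rcases h v₂ with h₂ | h₂ <;> rcases h v₃ with h₃ | h₃
  all_goals first
    | exact hne hv₂ (h₂.trans h₁.symm)
    | exact hne hv₃.1 (h₃.trans h₁.symm)
    | exact hne hv₃.2 (h₃.trans h₂.symm)

/-- The ideal of the diagonal is invertible. -/
theorem isInvertible_diagMod : (diagMod c).IsInvertible := by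
  refine isInvertible_of_isLineOn fun x _ => ?_
  obtain ⟨S, hS, h1, h2⟩ := exists_openCompl_mem c (pullback.fst c c x) (pullback.snd c c x)
  set A := regularOff (K := k) S
  set U := openCompl c S
  let e : A ≃+* Γ(C, U) := coordEquiv S U fun y => pt_mem_openCompl c
  have he : ∀ a, e (algebraMap k A a) = sectionsHom c U a := coordEquiv_const S U _
  have hU : IsAffineOpen U := isAffineOpen_openCompl c hS
  let E := boxEquiv c c U U e he e he hU hU
  have hV := isAffineOpen_boxOpen c c U U hU hU
  have hxV : x ∈ boxOpen c c U U := ⟨h1, h2⟩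
  have := isDedekindDomain_regularOff c hS
  have := finiteType_regularOff c hS
  have : Algebra.FiniteType k (A ⊗[k] A) := Algebra.FiniteType.trans (S := A) ‹_› inferInstance
  have : IsNoetherianRing (A ⊗[k] A) := Algebra.FiniteType.isNoetherianRing k _
  obtain ⟨M, hM, hle⟩ := Ideal.exists_le_maximal
    ((hV.primeIdealOf ⟨x, hxV⟩).asIdeal.comap E.toRingHom)
    (Ideal.IsPrime.ne_top (Ideal.comap_isPrime _ _))
  let := Ideal.Quotient.field M
  have : Module.Finite k ((A ⊗[k] A) ⧸ M) := finite_of_finite_type_of_isJacobsonRing k _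
  have : Algebra.IsIntegral k ((A ⊗[k] A) ⧸ M) := Algebra.IsIntegral.of_finite k _
  let F : k ≃ₐ[k] (A ⊗[k] A) ⧸ M :=
    AlgEquiv.ofBijective (Algebra.ofId k _) IsAlgClosed.algebraMap_bijective_of_isIntegral
  obtain ⟨u, f, hu, hf, hgen, hann⟩ := (onePt k A).exists_local_generator
    (not_isField_regularOff c hS) M (F.symm.toAlgHom.comp (Ideal.Quotient.mkₐ k M)) (by
      ext z
      rw [RingHom.mem_ker, AlgHom.comp_apply]
      exact (map_eq_zero_iff _ F.symm.injective).trans Ideal.Quotient.eq_zero_iff_mem)
  have hxu : x ∈ (pullback c c).basicOpen (E u) := by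
    have hp : E u ∉ (hV.primeIdealOf ⟨x, hxV⟩).asIdeal := fun h => hu (hle h)
    have h : hV.fromSpec (hV.primeIdealOf ⟨x, hxV⟩) ∈ (pullback c c).basicOpen (E u) :=
      (SetLike.ext_iff.mp (hV.fromSpec_preimage_basicOpen (E u))
        (hV.primeIdealOf ⟨x, hxV⟩)).mpr hp
    rwa [hV.fromSpec_primeIdealOf] at h
  refine ⟨_, hxu, le_top, _, isGen_kerMod hV (E u) (E f)
    ((app_diag_boxHom_eq_zero_iff c U e he f).mpr hf) (fun i hi => ?_) fun z hz => ?_⟩
  · obtain ⟨i, rfl⟩ := E.surjective i
    obtain ⟨b, hb⟩ := Ideal.mem_span_singleton'.mp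
      (hgen i ((app_diag_boxHom_eq_zero_iff c U e he i).mp hi))
    exact Ideal.mem_span_singleton'.mpr ⟨E b, by rw [← map_mul, hb, map_mul]⟩
  · obtain ⟨z, rfl⟩ := E.surjective z
    rw [← map_mul, map_eq_zero_iff _ E.injective] at hz ⊢
    exact hann z hz

end Fermat.Agent.Pic.Power
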