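import Fermat.Agent.Pic.Bridge.Iso
import Fermat.Agent.Pic.Cech.Divisor
import Fermat.Agent.Pic.Power.Diagonal

/-!
# The ideal of a graph in `C × Spec R`

For a point with values in the overlap of the two charts the datum of the ideal of its graph is
the ideal datum of the rank one quotient given by the point; along an open immersion the ideal of
the diagonal pulls back to the ideal of the graph.
-/

noncomputable section

universe u

open CategoryTheory CategoryTheory.Limits AlgebraicGeometry AlgebraicCurve TopologicalSpace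
open AlgebraicGeometry.RelPicard NeronModelInfra
open scoped TensorProduct
open Fermat.Agent.Pic.Repr

namespace Fermat.Agent.Pic.Power

section HomPoint

variable {k : Type u} [Field k] {B R : Type u} [CommRing B] [Algebra k B] [CommRing R] [Algebra k R]

/-- The quotient cut out by a point, on which `1` is a basis. -/
def homPt (φ : B →ₐ[k] R) : Hilb.Pt k (fun _ : PUnit.{u + 1} => (1 : B)) R where
  π := LinearMap.pi fun _ => φ.toLinearMap
  norm i := funext fun j => by simp [Subsingleton.elim i j]
  mul b c := funext fun j => by simp [mul_comm]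

theorem homPt_πR (φ : B →ₐ[k] R) (z : R ⊗[k] B) :
    (homPt φ).πR z = fun _ => Algebra.TensorProduct.lift (AlgHom.id k R) φ (fun _ _ =>
      mul_comm _ _) z := by
  induction z using TensorProduct.induction_on with
  | zero => simp; rfl
  | tmul a b => funext i; simp [homPt]
  | add x y hx hy => funext i; simp [hx, hy]

theorem mem_homPt_ideal {φ : B →ₐ[k] R} {z : R ⊗[k] B} :
    z ∈ (homPt φ).ideal ↔
      Algebra.TensorProduct.lift (AlgHom.id k R) φ (fun _ _ => mul_comm _ _) z = 0 := by
  rw [Hilb.Pt.mem_ideal, homPt_πR, funext_iff]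
  exact ⟨fun h => h PUnit.unit, fun h _ => h⟩

end HomPoint

section Restrict

variable {X X' Z Z' : Scheme.{u}} {σ : Z ⟶ X} {σ' : Z' ⟶ X'} {j : X' ⟶ X} {i : Z' ⟶ Z}
  [IsOpenImmersion j] [IsOpenImmersion i]

theorem image_preimage_sq (w : σ' ≫ j = i ≫ σ) (hr : σ ⁻¹ᵁ j.opensRange ≤ i.opensRange)
    (W : X'.Opens) : i ''ᵁ (σ' ⁻¹ᵁ W) = σ ⁻¹ᵁ (j ''ᵁ W) := by
  ext z
  constructor
  · rintro ⟨z', hz', rfl⟩
    exact ⟨σ' z', hz', (Scheme.Hom.comp_apply σ' j z').symm.trans
      ((congrArg (fun f : Z' ⟶ X => f z') w).trans (Scheme.Hom.comp_apply i σ z'))⟩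
  · intro hz
    obtain ⟨z', rfl⟩ := hr (j.image_le_opensRange W hz)
    obtain ⟨x', hx', e⟩ := hz
    refine ⟨z', ?_, rfl⟩
    show σ' z' ∈ W
    have h : j (σ' z') = j x' := ((Scheme.Hom.comp_apply σ' j z').symm.trans
      ((congrArg (fun f : Z' ⟶ X => f z') w).trans (Scheme.Hom.comp_apply i σ z'))).trans e.symm
    rwa [j.isOpenEmbedding.injective h]

theorem app_appIso_eq_zero_iff (w : σ' ≫ j = i ≫ σ) (hr : σ ⁻¹ᵁ j.opensRange ≤ i.opensRange)
    (W : X'.Opens) (r : Γ(X, j ''ᵁ W)) :
    σ'.app W ((j.appIso W).hom r) = 0 ↔ σ.app (j ''ᵁ W) r = 0 := by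
  have key : (j.appIso W).hom ≫ σ'.app W =
      σ.app (j ''ᵁ W) ≫ Z.presheaf.map (homOfLE (image_preimage_sq w hr W).le).op ≫
        (i.appIso (σ' ⁻¹ᵁ W)).hom := by
    rw [Scheme.Hom.appIso_hom', Scheme.Hom.appIso_hom', Scheme.Hom.app_eq_appLE,
      Scheme.Hom.app_eq_appLE, Scheme.Hom.appLE_comp_appLE, Scheme.Hom.map_appLE,
      Scheme.Hom.appLE_comp_appLE]
    simp only [w]
  have h : σ'.app W ((j.appIso W).hom r) = (i.appIso (σ' ⁻¹ᵁ W)).hom
      (resF (image_preimage_sq w hr W).le (σ.app (j ''ᵁ W) r)) :=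
    ConcreteCategory.congr_hom key r
  rw [h, map_eq_zero_iff _ (ConcreteCategory.bijective_of_isIso (i.appIso (σ' ⁻¹ᵁ W)).hom).1]
  refine ⟨fun h => ?_, fun h => by rw [h, Bridge.resF_zero]⟩
  have h' := congrArg (resF (image_preimage_sq w hr W).ge) h
  rwa [resF_resF, resF_self, Bridge.resF_zero] at h'

variable (σ σ' j) in
/-- Killed functions on the image as killed functions. -/
theorem exists_kerRestrict (w : σ' ≫ j = i ≫ σ) (hr : σ ⁻¹ᵁ j.opensRange ≤ i.opensRange) :
    ∃ φ : LinOn ⊤ ((kerMod σ).restrict j) (kerMod σ'), φ.IsIsoOn := by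
  let f : ∀ W : X'.Opens, Γ((kerMod σ).restrict j, W) → Γ(kerMod σ', W) := fun W m =>
    kerMk σ' ((j.appIso W).hom (kerVal (ofRestrict j m)))
      ((app_appIso_eq_zero_iff w hr W _).mpr (app_kerVal _))
  refine ⟨{ app := fun W _ =>
              { toFun := f W
                map_add' := fun m n => kerVal_injective (map_add (j.appIso W).hom.hom
                  (kerVal (ofRestrict j m)) (kerVal (ofRestrict j n)))
                map_smul' := fun r m => kerVal_injective ?_ }
            natural := fun {W W'} _ h m => kerVal_injective ?_ }, fun W _ => ⟨fun m n e => ?_,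
              fun m => ?_⟩⟩
  · rw [RingHom.id_apply, kerVal_smul, kerVal_kerMk, kerVal_kerMk, ofRestrict_smul, kerVal_smul,
      map_mul, Iso.inv_hom_id_apply]
  · show (j.appIso W).hom (kerVal (ofRestrict j (res _ h m))) =
      resF h ((j.appIso W').hom (kerVal (ofRestrict j m)))
    rw [ofRestrict_res, kerVal_res]
    have key : X.presheaf.map (homOfLE (j.image_mono h)).op ≫ (j.appIso W).hom =
        (j.appIso W').hom ≫ X'.presheaf.map (homOfLE h).op := by
      rw [Scheme.Hom.appIso_hom', Scheme.Hom.appIso_hom', Scheme.Hom.map_appLE,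
        Scheme.Hom.appLE_map]
    exact ConcreteCategory.congr_hom key _
  · have e' := congrArg kerVal e
    exact kerVal_injective
      ((ConcreteCategory.bijective_of_isIso (j.appIso W).hom).1 e')
  · refine ⟨toRestrict j (kerMk σ ((j.appIso W).inv (kerVal m))
      ((app_appIso_eq_zero_iff w hr W _).mp
      (by rw [Iso.inv_hom_id_apply]; exact app_kerVal m))), kerVal_injective ?_⟩
    exact Iso.inv_hom_id_apply (j.appIso W) (kerVal m)

/-- The ideal pulls back along open immersions. -/
theorem nonempty_pullback_kerMod_iso (w : σ' ≫ j = i ≫ σ)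
    (hr : σ ⁻¹ᵁ j.opensRange ≤ i.opensRange) :
    Nonempty ((Scheme.Modules.pullback j).obj (kerMod σ) ≅ kerMod σ') := by
  obtain ⟨φ, hφ⟩ := exists_kerRestrict σ σ' j w hr
  have := φ.isIso_toHom hφ
  exact ⟨((Scheme.Modules.restrictFunctorIsoPullback j).app (kerMod σ)).symm ≪≫ asIso φ.toHom⟩

end Restrict

variable {k : Type u} [Field k] {C : Scheme.{u}} (c : C ⟶ Spec (CommRingCat.of k))
  {R : Type u} [CommRing R] [Algebra k R]

/-- The graph of a point. -/
def graphSec (g : SchemeHomOver (specMap k R) c) : Spec (CommRingCat.of R) ⟶ prodSpec c R :=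
  pullback.lift g.1 (𝟙 _) (by rw [g.2, Category.id_comp])

theorem graphSec_fst (g : SchemeHomOver (specMap k R) c) :
    graphSec c g ≫ pullback.fst c (specMap k R) = g.1 :=
  pullback.lift_fst _ _ _

theorem graphSec_snd (g : SchemeHomOver (specMap k R) c) :
    graphSec c g ≫ pullback.snd c (specMap k R) = 𝟙 _ :=
  pullback.lift_snd _ _ _

theorem graphSec_baseChangeSnd (g : SchemeHomOver (specMap k R) c) :
    graphSec c g ≫ baseChangeSnd c g = g.1 ≫ diag c := by
  apply pullback.hom_ext
  · simp only [Category.assoc, baseChangeSnd, pullback.lift_fst, Category.comp_id, graphSec_fst,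
      pullback.diagonal_fst]
  · simp only [Category.assoc, baseChangeSnd, pullback.lift_snd, Category.comp_id,
      pullback.diagonal_snd]
    rw [← Category.assoc, graphSec_snd, Category.id_comp]

instance isOpenImmersion_baseChangeSnd (g : SchemeHomOver (specMap k R) c) [IsOpenImmersion g.1] :
    IsOpenImmersion (baseChangeSnd c g) := by
  unfold baseChangeSnd
  infer_instance

/-- The ideal of the diagonal on `C × U` is the ideal of the graph of `U → C`. -/
theorem nonempty_pullback_diagMod_iso (g : SchemeHomOver (specMap k R) c) [IsOpenImmersion g.1] :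
    Nonempty ((Scheme.Modules.pullback (baseChangeSnd c g)).obj (diagMod c) ≅
      kerMod (graphSec c g)) := by
  refine nonempty_pullback_kerMod_iso (i := g.1) (graphSec_baseChangeSnd c g) fun z hz => ?_
  obtain ⟨x, hx⟩ := hz
  refine ⟨pullback.snd c (specMap k R) x, ?_⟩
  have h := congrArg (pullback.snd c c) hx
  rw [← Scheme.Hom.comp_apply, ← Scheme.Hom.comp_apply,
    show baseChangeSnd c g ≫ pullback.snd c c = pullback.snd c (specMap k R) ≫ g.1 from
      pullback.lift_snd _ _ _, pullback.diagonal_snd] at h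
  exact h

variable [IsAlgClosed k] [IsIntegral C] {c} [IsProper c] [SmoothOfRelativeDimension 1 c]
  (p : Parameter c) (g : SchemeHomOver (specMap k R) c)
  (hg : ⊤ ≤ g.1 ⁻¹ᵁ (p.open0 ⊓ p.open1))

include hg in
theorem le_preimage_graph : ⊤ ≤ graphSec c g ⁻¹ᵁ prodOpen c R (p.open0 ⊓ p.open1) := by
  rw [prodOpen, ← Scheme.Hom.comp_preimage, graphSec_fst]
  exact hg

/-- Evaluation of functions on the overlap at the graph. -/
def graphEval : Γ(prodSpec c R, prodOpen c R (p.open0 ⊓ p.open1)) ⟶ CommRingCat.of R :=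
  (graphSec c g).appLE _ ⊤ (le_preimage_graph p g hg) ≫ (Scheme.ΓSpecIso (CommRingCat.of R)).hom

theorem graphEval_constHom (r : R) :
    graphEval p g hg (constHom c R (p.open0 ⊓ p.open1) r) = r := by
  have h : constHom c R (p.open0 ⊓ p.open1) ≫ graphEval p g hg = 𝟙 _ := by
    rw [constHom, graphEval, Category.assoc, Scheme.Hom.appLE_comp_appLE_assoc]
    simp only [graphSec_snd]
    simp [Scheme.Hom.appLE]
  exact ConcreteCategory.congr_hom h r

/-- A point of the overlap as a map of rings. -/
def pointHom : p.cover.B01 →ₐ[k] R where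
  toRingHom := (g.1.appLE (p.open0 ⊓ p.open1) ⊤ hg ≫
    (Scheme.ΓSpecIso (CommRingCat.of R)).hom).hom.comp p.coord01.toRingHom
  commutes' a := by
    have h : sectionsHom c (p.open0 ⊓ p.open1) ≫ g.1.appLE (p.open0 ⊓ p.open1) ⊤ hg ≫
        (Scheme.ΓSpecIso (CommRingCat.of R)).hom = CommRingCat.ofHom (algebraMap k R) := by
      rw [sectionsHom, Category.assoc, Scheme.Hom.appLE_comp_appLE_assoc]
      simp only [g.2]
      simp [Scheme.Hom.appLE, Scheme.ΓSpecIso_naturality]
    refine (congrArg (g.1.appLE (p.open0 ⊓ p.open1) ⊤ hg ≫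
      (Scheme.ΓSpecIso (CommRingCat.of R)).hom) (coordEquiv_const _ _ p.mem_open01 a)).trans ?_
    exact ConcreteCategory.congr_hom h a

theorem graphEval_fst (b : p.cover.B01) :
    graphEval p g hg ((pullback.fst c (specMap k R)).app _ (p.coord01 b)) = pointHom p g hg b := by
  have h : (pullback.fst c (specMap k R)).app (p.open0 ⊓ p.open1) ≫ graphEval p g hg =
      g.1.appLE (p.open0 ⊓ p.open1) ⊤ hg ≫ (Scheme.ΓSpecIso (CommRingCat.of R)).hom := by
    rw [graphEval, Scheme.Hom.app_eq_appLE, Scheme.Hom.appLE_comp_appLE_assoc]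
    simp only [graphSec_fst]
  exact ConcreteCategory.congr_hom h (p.coord01 b)

theorem app_graph_chart01_iff (z : p.cover.RB01 R) :
    (graphSec c g).app _ (p.chart01 R z) = 0 ↔ z ∈ (homPt (pointHom p g hg)).ideal := by
  have h : ∀ z : p.cover.RB01 R, graphEval p g hg (p.chart01 R z) =
      Algebra.TensorProduct.lift (AlgHom.id k R) (pointHom p g hg) (fun _ _ => mul_comm _ _) z :=
    fun z => by
      induction z using TensorProduct.induction_on with
      | zero => simp
      | tmul r b =>
        rw [Parameter.chart01, prodSectionsEquiv, RingEquiv.ofBijective_apply, prodSectionsHom_tmul,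
          map_mul, graphEval_constHom, graphEval_fst, Algebra.TensorProduct.lift_tmul]
        rfl
      | add x y hx hy => rw [map_add, map_add, hx, hy, map_add]
  rw [mem_homPt_ideal, ← h]
  have e : graphEval p g hg (p.chart01 R z) = (Scheme.ΓSpecIso (CommRingCat.of R)).hom
      (resF (le_preimage_graph p g hg) ((graphSec c g).app _ (p.chart01 R z))) := rfl
  rw [e, map_eq_zero_iff _
    (ConcreteCategory.bijective_of_isIso (Scheme.ΓSpecIso (CommRingCat.of R)).hom).1]
  refine ⟨fun h => by rw [h, Bridge.resF_zero], fun h => ?_⟩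
  have h' := congrArg
    (resF (le_top : graphSec c g ⁻¹ᵁ prodOpen c R (p.open0 ⊓ p.open1) ≤ ⊤)) h
  rwa [resF_resF, resF_self, Bridge.resF_zero] at h'

include hg in
theorem app_graph_res_iff {U : C.Opens} (h : p.open0 ⊓ p.open1 ≤ U)
    (s : Γ(prodSpec c R, prodOpen c R U)) :
    (graphSec c g).app _ (resF ((pullback.fst c (specMap k R)).preimage_mono h) s) = 0 ↔
      (graphSec c g).app _ s = 0 := by
  rw [app_resF]
  refine ⟨fun h0 => ?_, fun h0 => by rw [h0, Bridge.resF_zero]⟩
  have h' := congrArg (resF (le_top.trans (le_preimage_graph p g hg) :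
    graphSec c g ⁻¹ᵁ prodOpen c R U ≤ _)) h0
  rwa [resF_resF, resF_self, Bridge.resF_zero] at h'

theorem app_graph_chart0_iff (a : p.cover.RB0 R) :
    (graphSec c g).app _ (p.chart0 R a) = 0 ↔
      a ∈ (Cech.pt0 (homPt (pointHom p g hg))).ideal := by
  rw [Cech.ideal_pt0, Ideal.mem_comap, ← app_graph_chart01_iff, ← p.res_chart0,
    ← app_graph_res_iff p g hg (inf_le_left : p.open0 ⊓ p.open1 ≤ p.open0) (p.chart0 R a)]
  rfl

theorem app_graph_chart1_iff (a : p.cover.RB1 R) :
    (graphSec c g).app _ (p.chart1 R a) = 0 ↔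
      a ∈ (Cech.pt1 (homPt (pointHom p g hg))).ideal := by
  rw [Cech.ideal_pt1, Ideal.mem_comap, ← app_graph_chart01_iff, ← p.res_chart1,
    ← app_graph_res_iff p g hg (inf_le_right : p.open0 ⊓ p.open1 ≤ p.open1) (p.chart1 R a)]
  rfl

/-- The datum of the ideal of the graph is the ideal datum of the point. -/
def graphEquiv (hM : IsLineOn (kerMod (graphSec c g)) ⊤) :
    (Cech.idealPre (homPt (pointHom p g hg))).Equiv
      ((p.charted R).toPre (kerMod (graphSec c g)) hM) where
  e0 :=
    { toFun := fun a => (p.charted R).sec0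
        (kerMk _ (p.chart0 R a.1) ((app_graph_chart0_iff p g hg _).mpr a.2))
      map_add' := fun a b => kerVal_injective (map_add (p.chart0 R) a.1 b.1)
      map_smul' := fun a b => kerVal_injective (map_mul (p.chart0 R) a b.1)
      invFun := fun m => ⟨(p.chart0 R).symm (kerVal m.val), (app_graph_chart0_iff p g hg _).mp (by
        rw [RingEquiv.apply_symm_apply]; exact app_kerVal _)⟩
      left_inv := fun a => Subtype.ext ((p.chart0 R).symm_apply_apply a.1)
      right_inv := fun m => kerVal_injective ((p.chart0 R).apply_symm_apply (kerVal m.val)) }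
  e1 :=
    { toFun := fun a => (p.charted R).sec1
        (kerMk _ (p.chart1 R a.1) ((app_graph_chart1_iff p g hg _).mpr a.2))
      map_add' := fun a b => kerVal_injective (map_add (p.chart1 R) a.1 b.1)
      map_smul' := fun a b => kerVal_injective (map_mul (p.chart1 R) a b.1)
      invFun := fun m => ⟨(p.chart1 R).symm (kerVal m.val), (app_graph_chart1_iff p g hg _).mp (by
        rw [RingEquiv.apply_symm_apply]; exact app_kerVal _)⟩
      left_inv := fun a => Subtype.ext ((p.chart1 R).symm_apply_apply a.1)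
      right_inv := fun m => kerVal_injective ((p.chart1 R).apply_symm_apply (kerVal m.val)) }
  e01 :=
    { toFun := fun a => (p.charted R).sec01
        (kerMk _ (p.chart01 R a.1) ((app_graph_chart01_iff p g hg _).mpr a.2))
      map_add' := fun a b => kerVal_injective (map_add (p.chart01 R) a.1 b.1)
      map_smul' := fun a b => kerVal_injective (map_mul (p.chart01 R) a b.1)
      invFun := fun m => ⟨(p.chart01 R).symm (kerVal m.val), (app_graph_chart01_iff p g hg _).mp (by
        rw [RingEquiv.apply_symm_apply]; exact app_kerVal _)⟩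
      left_inv := fun a => Subtype.ext ((p.chart01 R).symm_apply_apply a.1)
      right_inv := fun m => kerVal_injective ((p.chart01 R).apply_symm_apply (kerVal m.val)) }
  comm0 a := kerVal_injective (p.res_chart0 R a.1).symm
  comm1 a := kerVal_injective (p.res_chart1 R a.1).symm

include hg in
/-- The datum of the pullback of the ideal of the diagonal to an open of the overlap. -/
theorem nonempty_equiv_diag [IsOpenImmersion g.1]
    (hM : ((Scheme.Modules.pullback (baseChangeSnd c g)).obj (diagMod c)).IsInvertible) :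
    Nonempty ((Cech.idealPre (homPt (pointHom p g hg))).Equiv
      ((p.charted R).toDatum _ hM).toPre) := by
  obtain ⟨e⟩ := nonempty_pullback_diagMod_iso c g
  have hK : IsLineOn (kerMod (graphSec c g)) ⊤ := fun x hx => by
    obtain ⟨V, hxV, hV, s, hs⟩ := isLineOn_top hM x hx
    exact ⟨V, hxV, hV, _, hs.map (LinOn.ofHom e.hom ⊤) (LinOn.isIsoOn_ofHom e.hom ⊤) hV⟩
  exact ⟨(graphEquiv p g hg hK).trans ((p.charted R).toEquiv (isLineOn_top hM) hK e).symm⟩

end Fermat.Agent.Pic.Power
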