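import Mathlib.AlgebraicGeometry.Morphisms.Smooth
import Mathlib.RingTheory.LocalProperties.Reduced
import Mathlib.RingTheory.RingHom.StandardSmooth
import Mathlib.RingTheory.Unramified.Field
import Fermat.Agent.Pic.Curve.Stalk
import Fermat.Agent.Pic.Power.GeomIntegral

/-!
# Schemes smooth over a field are reduced

A standard smooth algebra is étale over a polynomial ring, so it embeds in an unramified algebra
over the field of rational functions.
-/

noncomputable section

universe u

open CategoryTheory AlgebraicGeometry TopologicalSpace
open scoped TensorProduct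

namespace Fermat.Agent.Pic.Power

/-- An étale algebra over a domain is reduced. -/
theorem isReduced_of_etale (P A : Type u) [CommRing P] [IsDomain P] [CommRing A] [Algebra P A]
    [Algebra.Etale P A] : _root_.IsReduced A := by
  let F := FractionRing P
  have : Algebra.FormallyUnramified F (F ⊗[P] A) := inferInstance
  have : _root_.IsReduced (F ⊗[P] A) := Algebra.FormallyUnramified.isReduced_of_field F (F ⊗[P] A)
  refine isReduced_of_injective (Algebra.TensorProduct.includeRight : A →ₐ[P] F ⊗[P] A)
    (Algebra.TensorProduct.includeRight_injective (IsFractionRing.injective P F))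

/-- A standard smooth algebra over a field is reduced. -/
theorem isReduced_of_isStandardSmooth {k A : Type u} [Field k] [CommRing A] {φ : k →+* A}
    (hφ : φ.IsStandardSmooth) : _root_.IsReduced A := by
  obtain ⟨n, g, -, hg⟩ := hφ.exists_etale_mvPolynomial
  algebraize [g]
  exact isReduced_of_etale (MvPolynomial (Fin n) k) A

/-- A scheme smooth over a field is reduced. -/
theorem isReduced_of_smooth {k : Type u} [Field k] {X : Scheme.{u}}
    (f : X ⟶ Spec (CommRingCat.of k)) [Smooth f] : IsReduced X := by
  have hst : ∀ x : X, _root_.IsReduced (X.presheaf.stalk x) := fun x => by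
    obtain ⟨U, hU, V, hV, hx, e, hf⟩ := Smooth.exists_isStandardSmooth f x
    have hUtop : U = ⊤ := top_le_iff.mp fun y _ => Subsingleton.elim (f x) y ▸ e hx
    subst hUtop
    have hA : _root_.IsReduced Γ(X, V) := isReduced_of_isStandardSmooth
      (φ := (sectionsHom f V).hom)
      (RingHom.isStandardSmooth_respectsIso.2 (f.appLE ⊤ V e).hom
        (Scheme.ΓSpecIso (CommRingCat.of k)).symm.commRingCatIsoToRingEquiv hf)
    let : Algebra Γ(X, V) (X.presheaf.stalk x) :=
      TopCat.Presheaf.algebra_section_stalk X.presheaf (⟨x, hx⟩ : V)
    have : IsLocalization.AtPrime (X.presheaf.stalk x) (hV.primeIdealOf ⟨x, hx⟩).asIdeal :=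
      hV.isLocalization_stalk ⟨x, hx⟩
    exact isReduced_localizationPreserves (hV.primeIdealOf ⟨x, hx⟩).asIdeal.primeCompl
      (X.presheaf.stalk x) hA
  exact isReduced_of_isReduced_stalk X

end Fermat.Agent.Pic.Power
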