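import Fermat.Agent.Pic.Curve.Smooth
import Fermat.Agent.Pic.Power.Graph

/-!
# The overlap of the two charts as a point

The overlap of the two charts is a point of the curve with values in its own coordinate ring, and
that point is an open immersion landing in the overlap.
-/

noncomputable section

universe u

open CategoryTheory CategoryTheory.Limits AlgebraicGeometry AlgebraicCurve TopologicalSpace
open AlgebraicGeometry.RelPicard NeronModelInfra
open scoped TensorProduct
open Fermat.Agent.Pic.Repr

namespace Fermat.Agent.Pic.Power

variable {k : Type u} [Field k]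

/-- The structure map restricted to an affine open is the map of its ring of functions. -/
theorem fromSpec_comp_structure {C : Scheme.{u}} (c : C ⟶ Spec (CommRingCat.of k)) {U : C.Opens}
    (hU : IsAffineOpen U) : hU.fromSpec ≫ c = Spec.map (sectionsHom c U) := by
  rw [← IsAffineOpen.SpecMap_appLE_fromSpec c (isAffineOpen_top _) hU le_top,
    IsAffineOpen.fromSpec_top, Scheme.isoSpec_Spec_inv, ← Spec.map_comp, sectionsHom]

variable [IsAlgClosed k] {C : Scheme.{u}} [IsIntegral C] {c : C ⟶ Spec (CommRingCat.of k)}
  [IsProper c] [SmoothOfRelativeDimension 1 c] (p : Parameter c)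

/-- The overlap as a point with values in its ring. -/
def overlapPoint : SchemeHomOver (specMap k p.cover.B01) c :=
  ⟨Spec.map (CommRingCat.ofHom p.coord01.symm.toRingHom) ≫ p.isAffineOpen_inf.fromSpec, by
    rw [Category.assoc, fromSpec_comp_structure, ← Spec.map_comp]
    congr 1
    exact CommRingCat.hom_ext (RingHom.ext fun a =>
      (congrArg p.coord01.symm (coordEquiv_const _ _ p.mem_open01 a).symm).trans
        (p.coord01.symm_apply_apply _))⟩

/-- The overlap point is an open immersion. -/
instance isOpenImmersion_overlapPoint : IsOpenImmersion (overlapPoint p).1 := by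
  have : IsIso (CommRingCat.ofHom p.coord01.symm.toRingHom) :=
    p.coord01.symm.toCommRingCatIso.isIso_hom
  unfold overlapPoint
  infer_instance

/-- The overlap point lands in the overlap. -/
theorem le_preimage_overlapPoint : ⊤ ≤ (overlapPoint p).1 ⁻¹ᵁ (p.open0 ⊓ p.open1) := by
  intro z _
  have h : p.isAffineOpen_inf.fromSpec (Spec.map (CommRingCat.ofHom p.coord01.symm.toRingHom) z) ∈
      ((p.open0 ⊓ p.open1 : C.Opens) : Set C) := by
    rw [← p.isAffineOpen_inf.range_fromSpec]
    exact ⟨_, rfl⟩
  exact h

end Fermat.Agent.Pic.Power
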