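import Fermat.Agent.Pic.Power.PairSurj
import Fermat.Agent.Pic.Props.Difference

/-!
# The map from the power of the curve to the degree zero scheme

The products of the ideals of the projections and their duals give a map from the power of the
curve to a scheme representing degree zero (it hits every rational point by `exists_lift_point`).
-/

noncomputable section

universe u

open CategoryTheory CategoryTheory.Limits AlgebraicGeometry AlgebraicCurve
open AlgebraicGeometry.RelPicard NeronModelInfra GoodReductionJacobian
open Fermat.Agent.Pic.Cech Fermat.Agent.Pic.Power Fermat.Agent.Pic.Bridge Fermat.Agent.Pic.Repr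

namespace Fermat.Agent.Pic.Parameter

variable {k : Type u} [Field k] [IsAlgClosed k] {C : Scheme.{u}} [IsIntegral C]
  {c : C ⟶ Spec (CommRingCat.of k)} [IsProper c] [SmoothOfRelativeDimension 1 c]
  (p : Parameter c) {ε : SchemeHomOver (𝟙 (Spec (CommRingCat.of k))) c}
  {D : RelativePic0Designation k c} (h : RepresentsRelSubPic c ε (p.degZero ε) D)

/-- The data at points of the power are natural in the base. -/
theorem nonempty_baseChange_pairAt {R R' : Type u} [CommRing R] [CommRing R'] [Algebra k R]
    [Algebra k R'] [Algebra R R'] [IsScalarTower k R R']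
    (f : SchemeHomOver (specMap k R) (powHom c (p.cover.genus + p.cover.genus))) :
    Nonempty (BaseChange (p.pairAt f).toPre (p.pairAt (postComp f (specOver R R'))).toPre) := by
  refine ⟨(tensorFinBaseChange fun j => ?_).tensor (tensorFinBaseChange fun j => ?_)⟩
  · simp only [postComp_assoc]
    exact (p.nonempty_baseChange_datumAt _ _ _).some.dual
  · simp only [postComp_assoc]
    exact (p.nonempty_baseChange_datumAt _ _ _).some

/-- At a tuple with equal halves the datum is trivial. -/
theorem nonempty_pairAt_self {R : Type u} [CommRing R] [Algebra k R]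
    (P : Fin p.cover.genus → SchemeHomOver (specMap k R) c) :
    Nonempty ((p.pairAt (tuple c (Fin.append P P))).toPre.Equiv (unitPre p.cover R)) := by
  simp only [pairAt, tuple_proj, Fin.append_left, Fin.append_right]
  obtain ⟨e⟩ := nonempty_dual_tensorFin fun j => diagDatum p (P j)
  exact ⟨(Datum.tensorCongr e.symm (Pre.Equiv.refl _)).trans (Datum.tensorDual _)⟩

/-- A map from the power whose datum at every point is the product of the ideals of the projections
and their duals. -/
theorem exists_pairMap :
    ∃ π : SchemeHomOver (powHom c (p.cover.genus + p.cover.genus)) D.toBase,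
      ∀ (R : Type u) [CommRing R] [Algebra k R]
        (f : SchemeHomOver (specMap k R) (powHom c (p.cover.genus + p.cover.genus))),
        LocEquiv (p.pointDatum h (postComp π f)) (p.pairAt f) := by
  have : Smooth c := SmoothOfRelativeDimension.smooth 1 c
  have := isIntegral_pow c (p.cover.genus + p.cover.genus)
  obtain ⟨r, hr, hrf⟩ := exists_chi_fun_of_data (fun R _ _ f => p.pairAt (R := R) f)
    (fun R R' _ _ _ _ _ _ f => p.nonempty_baseChange_pairAt (R' := R') f)
  obtain ⟨φ⟩ : Nonempty (p.cover.B01 →ₐ[k] k) := Cover.HasPoints.infinite_points.nonempty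
  let o := tuple c (Fin.append (fun _ : Fin p.cover.genus => pointOf p φ)
    fun _ : Fin p.cover.genus => pointOf p φ)
  obtain ⟨g, hg, -⟩ := p.existsUnique_of_data h (fun R _ _ f => p.pairAt (R := R) f)
    (fun R R' _ _ _ _ _ _ f => p.nonempty_baseChange_pairAt (R' := R') f) fun K _ _ f => by
      rw [hrf K f (default : PrimeSpectrum K),
        hr.apply_eq_of_preconnectedSpace _ (o.1 (default : PrimeSpectrum k)),
        ← hrf k o (default : PrimeSpectrum k)]
      exact chi_eq_of_equiv (p.nonempty_pairAt_self _).some
  exact ⟨g, fun R _ _ f => hg R f⟩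

end Fermat.Agent.Pic.Parameter
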