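import Fermat.Agent.Pic.Bridge.Classify
import Fermat.Agent.Pic.Power.DiagFibre

/-!
# The datum of the ideal of a point

`diagDatum p f` is the datum of the ideal of the graph of `f : Spec R → C`; for `f` in the
overlap it is the ideal datum of the rank one quotient.
-/

noncomputable section

universe u

open CategoryTheory CategoryTheory.Limits AlgebraicGeometry AlgebraicCurve TopologicalSpace
open AlgebraicGeometry.RelPicard NeronModelInfra
open Fermat.Agent.Pic.Repr

namespace Fermat.Agent.Pic.Power

theorem homPt_map {k : Type u} [Field k] {B R R' : Type u} [CommRing B] [Algebra k B] [CommRing R]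
    [Algebra k R] [CommRing R'] [Algebra k R'] (φ : B →ₐ[k] R) (f : R →ₐ[k] R') :
    (homPt φ).map f = homPt (f.comp φ) :=
  Hilb.Pt.ext (LinearMap.ext fun _ => rfl)

variable {k : Type u} [Field k] [IsAlgClosed k] {C : Scheme.{u}} [IsIntegral C]
  {c : C ⟶ Spec (CommRingCat.of k)} [IsProper c] [SmoothOfRelativeDimension 1 c] (p : Parameter c)
  {R : Type u} [CommRing R] [Algebra k R]

/-- The point of the overlap given by a map on its ring. -/
def pointOf (φ : p.cover.B01 →ₐ[k] R) : SchemeHomOver (specMap k R) c :=
  ⟨Spec.map (CommRingCat.ofHom φ.toRingHom) ≫ (overlapPoint p).1, by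
    rw [Category.assoc, (overlapPoint p).2, ← Spec.map_comp, ← CommRingCat.ofHom_comp]
    exact congrArg (fun ψ => Spec.map (CommRingCat.ofHom ψ)) φ.comp_algebraMap⟩

/-- A point landing in the overlap is the point of its map on rings. -/
theorem pointOf_pointHom (f : SchemeHomOver (specMap k R) c)
    (hf : ⊤ ≤ f.1 ⁻¹ᵁ (p.open0 ⊓ p.open1)) : pointOf p (pointHom p f hf) = f := by
  refine Subtype.ext ?_
  have h := IsAffineOpen.SpecMap_appLE_fromSpec f.1 p.isAffineOpen_inf (isAffineOpen_top _) hf
  rw [IsAffineOpen.fromSpec_top, Scheme.isoSpec_Spec_inv] at h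
  show Spec.map _ ≫ Spec.map _ ≫ p.isAffineOpen_inf.fromSpec = f.1
  rw [← Spec.map_comp_assoc]
  have e : CommRingCat.ofHom p.coord01.symm.toRingHom ≫
      CommRingCat.ofHom (pointHom p f hf).toRingHom =
      f.1.appLE (p.open0 ⊓ p.open1) ⊤ hf ≫ (Scheme.ΓSpecIso (CommRingCat.of R)).hom :=
    CommRingCat.hom_ext (RingHom.ext fun s => congrArg
      (f.1.appLE (p.open0 ⊓ p.open1) ⊤ hf ≫ (Scheme.ΓSpecIso (CommRingCat.of R)).hom)
      (p.coord01.apply_symm_apply s))
  rw [e, Spec.map_comp_assoc, h, ← Spec.map_comp_assoc, Iso.inv_hom_id, Spec.map_id,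
    Category.id_comp]

theorem pointOf_injective : Function.Injective (pointOf p (R := R)) := by
  intro φ ψ h
  have h1 : Spec.map (CommRingCat.ofHom φ.toRingHom) ≫ (overlapPoint p).1 =
      Spec.map (CommRingCat.ofHom ψ.toRingHom) ≫ (overlapPoint p).1 := congrArg Subtype.val h
  rw [cancel_mono] at h1
  exact AlgHom.coe_ringHom_injective (congrArg CommRingCat.Hom.hom (Spec.map_injective h1))

/-- The ring map of the overlap point is the identity. -/
theorem pointHom_overlapPoint :
    pointHom p (overlapPoint p) (le_preimage_overlapPoint p) = AlgHom.id k p.cover.B01 :=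
  pointOf_injective p ((pointOf_pointHom p _ _).trans (Subtype.ext (by
    show (overlapPoint p).1 = Spec.map _ ≫ (overlapPoint p).1
    rw [show CommRingCat.ofHom (AlgHom.id k p.cover.B01).toRingHom = 𝟙 _ from rfl, Spec.map_id,
      Category.id_comp])))

/-- The datum of the ideal of a point. -/
abbrev diagDatum (f : SchemeHomOver (specMap k R) c) : Cech.Datum p.cover R :=
  p.datumAt (diagMod c) (isInvertible_diagMod c) f

/-- In the overlap it is the ideal datum of the quotient. -/
theorem nonempty_diagDatum_pointOf (φ : p.cover.B01 →ₐ[k] R) :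
    Nonempty ((Cech.idealDatum (homPt φ)).toPre.Equiv (diagDatum p (pointOf p φ)).toPre) := by
  let : Algebra p.cover.B01 R := φ.toRingHom.toAlgebra
  have : IsScalarTower k p.cover.B01 R := IsScalarTower.of_algHom φ
  have e : postComp (overlapPoint p) (specOver (k := k) p.cover.B01 R) = pointOf p φ :=
    Subtype.ext rfl
  obtain ⟨E⟩ := nonempty_equiv_diag p (overlapPoint p) (le_preimage_overlapPoint p)
    ((isInvertible_diagMod c).pullback _)
  have h1 := p.nonempty_baseChange_datumAt (R' := R) (diagMod c) (isInvertible_diagMod c)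
    (overlapPoint p)
  rw [e] at h1
  have h2 := Bridge.nonempty_equiv_baseChange E
    (Cech.idealBaseChange (R' := R)
      (homPt (pointHom p (overlapPoint p) (le_preimage_overlapPoint p))))
    h1.some
  have hx : (homPt (pointHom p (overlapPoint p) (le_preimage_overlapPoint p))).map
      (IsScalarTower.toAlgHom k p.cover.B01 R) = homPt φ := by
    rw [homPt_map, pointHom_overlapPoint]
    rfl
  rw [hx] at h2
  exact h2

end Fermat.Agent.Pic.Power
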