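import Fermat.Agent.Pic.Curve.HasPoints
import Fermat.Agent.Pic.Field.Pair
import Fermat.Agent.Pic.Field.PointDecomp
import Fermat.Agent.Pic.Power.PointDatum

/-!
# Degree zero data are given by tuples of points of the curve

A datum of degree zero over the ground field is the product of the ideals of `genus` rational
points and of the duals of the ideals of `genus` others.
-/

noncomputable section

universe u

open CategoryTheory CategoryTheory.Limits AlgebraicGeometry AlgebraicCurve
open AlgebraicGeometry.RelPicard NeronModelInfra
open Fermat.Agent.Pic.Cech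

namespace Fermat.Agent.Pic.Cech

variable {k : Type u} [Field k] {C : Cover k} {R : Type u} [CommRing R] [Algebra k R]

/-- The dual of a product of a family is the product of the duals. -/
theorem nonempty_dual_tensorFin : ∀ {n : ℕ} (L : Fin n → Datum C R),
    Nonempty ((tensorFin L).dual.toPre.Equiv (tensorFin fun i => (L i).dual).toPre)
  | 0, _ => ⟨(Datum.tensorUnit (unitDatum C R).dual).symm.trans (Datum.tensorDual (unitDatum C R))⟩
  | _ + 1, L => by
    obtain ⟨e⟩ := nonempty_dual_tensorFin fun i => L i.castSucc
    obtain ⟨d⟩ := Datum.nonempty_dual_tensor (tensorFin fun i => L i.castSucc) (L (Fin.last _))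
    exact ⟨d.trans (Datum.tensorCongr e (Pre.Equiv.refl _))⟩

end Fermat.Agent.Pic.Cech

namespace Fermat.Agent.Pic.Power

variable {k : Type u} [Field k] [IsAlgClosed k] {C : Scheme.{u}} [IsIntegral C]
  {c : C ⟶ Spec (CommRingCat.of k)} [IsProper c] [SmoothOfRelativeDimension 1 c] (p : Parameter c)

/-- A degree zero datum over the ground field comes from a tuple of points. -/
theorem exists_points_of_degZero (L : Datum p.cover k)
    (hL : L.toPre.chi = (unitPre p.cover k).chi) :
    ∃ P Q : Fin p.cover.genus → SchemeHomOver (specMap k k) c,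
      Nonempty (L.toPre.Equiv ((tensorFin fun j => (diagDatum p (P j)).dual).tensor
        (tensorFin fun j => diagDatum p (Q j))).toPre) := by
  obtain ⟨e, e', x, y, ⟨E⟩⟩ := Field.exists_difference_divisors L hL
  obtain ⟨P, ⟨EP⟩⟩ := Field.exists_tensorFin_homPt x
  obtain ⟨Q, ⟨EQ⟩⟩ := Field.exists_tensorFin_homPt y
  have hc : Fintype.card (ULift.{u} (Fin p.cover.genus)) = p.cover.genus := by simp
  have FP := fun j => (nonempty_diagDatum_pointOf p (P j)).some
  have FQ := fun j => (nonempty_diagDatum_pointOf p (Q j)).some
  let a : Fin (Fintype.card (ULift.{u} (Fin p.cover.genus))) → SchemeHomOver (specMap k k) c :=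
    fun j => pointOf p (P j)
  let b : Fin (Fintype.card (ULift.{u} (Fin p.cover.genus))) → SchemeHomOver (specMap k k) c :=
    fun j => pointOf p (Q j)
  obtain ⟨D1⟩ := nonempty_dual_tensorFin fun j => idealDatum (homPt (P j))
  have F : L.toPre.Equiv ((tensorFin fun j => (diagDatum p (a j)).dual).tensor
      (tensorFin fun j => diagDatum p (b j))).toPre :=
    E.trans (Datum.tensorCongr
      ((EP.symm.dual.trans D1).trans (tensorFinCongr fun j => (FP j).symm.dual))
      (EQ.trans (tensorFinCongr FQ)))
  clear_value a b
  revert a b F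
  rw [hc]
  exact fun a b F => ⟨a, b, ⟨F⟩⟩

end Fermat.Agent.Pic.Power
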