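import Fermat.Agent.Pic.Power.PairPoints

/-!
# Every rational point of the degree zero scheme comes from the power of the curve

A map from the power with `2 * genus` factors whose data are the products of the ideals of the
projections and of their duals hits every rational point.
-/

noncomputable section

universe u

open CategoryTheory CategoryTheory.Limits AlgebraicGeometry AlgebraicCurve
open AlgebraicGeometry.RelPicard NeronModelInfra GoodReductionJacobian
open Fermat.Agent.Pic.Cech Fermat.Agent.Pic.Power Fermat.Agent.Pic.Bridge Fermat.Agent.Pic.Repr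

namespace Fermat.Agent.Pic.Parameter

variable {k : Type u} [Field k] [IsAlgClosed k] {C : Scheme.{u}} [IsIntegral C]
  {c : C ⟶ Spec (CommRingCat.of k)} [IsProper c] [SmoothOfRelativeDimension 1 c]
  (p : Parameter c) {ε : SchemeHomOver (𝟙 (Spec (CommRingCat.of k))) c}
  {D : RelativePic0Designation k c} (h : RepresentsRelSubPic c ε (p.degZero ε) D)

/-- The datum at a point of the power: ideals of the last factors, duals of those of the first. -/
abbrev pairAt {R : Type u} [CommRing R] [Algebra k R]
    (f : SchemeHomOver (specMap k R) (powHom c (p.cover.genus + p.cover.genus))) :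
    Datum p.cover R :=
  (tensorFin fun j : Fin p.cover.genus =>
      (diagDatum p (postComp (proj c _ (Fin.castAdd p.cover.genus j)) f)).dual).tensor
    (tensorFin fun j : Fin p.cover.genus =>
      diagDatum p (postComp (proj c _ (Fin.natAdd p.cover.genus j)) f))

/-- A map with these data hits every rational point. -/
theorem exists_lift_point
    (π : SchemeHomOver (powHom c (p.cover.genus + p.cover.genus)) D.toBase)
    (hπ : ∀ f : SchemeHomOver (specMap k k) (powHom c (p.cover.genus + p.cover.genus)),
      LocEquiv (p.pointDatum h (postComp π f)) (p.pairAt f))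
    (g : SchemeHomOver (𝟙 (Spec (CommRingCat.of k))) D.toBase) :
    ∃ g' : Spec (CommRingCat.of k) ⟶ Pow c (p.cover.genus + p.cover.genus), g' ≫ π.1 = g.1 := by
  have hid : specMap k k = 𝟙 (Spec (CommRingCat.of k)) := Spec.map_id _
  let g0 : SchemeHomOver (specMap k k) D.toBase := ⟨g.1, g.2.trans hid.symm⟩
  obtain ⟨P, Q, ⟨E⟩⟩ := exists_points_of_degZero p (p.pointDatum h g0) (h.poincare_mem k g0)
  let f := tuple c (Fin.append P Q)
  have hf : p.pairAt f = (tensorFin fun j => (diagDatum p (P j)).dual).tensor
      (tensorFin fun j => diagDatum p (Q j)) := by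
    simp only [pairAt, f, tuple_proj, Fin.append_left, Fin.append_right]
  have hloc : LocEquiv (p.pointDatum h (postComp π f)) (p.pointDatum h g0) := fun x => by
    obtain ⟨s, hs, ⟨e⟩⟩ := hπ f x
    rw [hf] at e
    exact ⟨s, hs, ⟨e.trans (E.symm.baseChange _)⟩⟩
  exact ⟨f.1, congrArg Subtype.val (p.eq_of_locEquiv h _ _ hloc)⟩

end Fermat.Agent.Pic.Parameter
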